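import Mathlib

set_option autoImplicit false

namespace Fermat.Agent.S53.ProRep

open IsLocalRing

section Quot

variable {Λ : Type*} [CommRing Λ] {M I : Ideal Λ}

theorem eq_of_isMaximal_of_pow_le [hM : M.IsMaximal] {n : ℕ} (hn : M ^ n ≤ I)
    {P : Ideal Λ} (hP : P.IsMaximal) (hIP : I ≤ P) : P = M := by
  have h1 : M ≤ P := hP.isPrime.le_of_pow_le (hn.trans hIP)
  exact (hM.eq_of_le hP.ne_top h1).symm

theorem isLocalRing_quotient [hM : M.IsMaximal] (hI : I ≤ M) {n : ℕ} (hn : M ^ n ≤ I) :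
    IsLocalRing (Λ ⧸ I) := by
  have hsurj : Function.Surjective (Ideal.Quotient.mk I) := Ideal.Quotient.mk_surjective
  have hker : RingHom.ker (Ideal.Quotient.mk I) ≤ M := by rwa [Ideal.mk_ker]
  refine IsLocalRing.of_unique_max_ideal ⟨M.map (Ideal.Quotient.mk I), ?_, ?_⟩
  · exact Ideal.IsMaximal.map_of_surjective_of_ker_le hsurj hker
  · intro P hP
    have hP' : (P.comap (Ideal.Quotient.mk I)).IsMaximal := Ideal.comap_isMaximal_of_surjective _ hsurj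
    have hle : I ≤ P.comap (Ideal.Quotient.mk I) := by
      intro x hx
      rw [Ideal.mem_comap, Ideal.Quotient.eq_zero_iff_mem.mpr hx]
      exact P.zero_mem
    have := eq_of_isMaximal_of_pow_le hn hP' hle
    rw [← this, Ideal.map_comap_of_surjective _ hsurj]

theorem maximalIdeal_quotient [hM : M.IsMaximal] (hI : I ≤ M) {n : ℕ} (hn : M ^ n ≤ I) :
    letI := isLocalRing_quotient hI hn
    maximalIdeal (Λ ⧸ I) = M.map (Ideal.Quotient.mk I) := by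
  have := isLocalRing_quotient hI hn
  have hsurj : Function.Surjective (Ideal.Quotient.mk I) := Ideal.Quotient.mk_surjective
  have hker : RingHom.ker (Ideal.Quotient.mk I) ≤ M := by rwa [Ideal.mk_ker]
  have : (M.map (Ideal.Quotient.mk I)).IsMaximal :=
    Ideal.IsMaximal.map_of_surjective_of_ker_le hsurj hker
  exact (IsLocalRing.eq_maximalIdeal this).symm

theorem maximalIdeal_quotient_pow [hM : M.IsMaximal] (hI : I ≤ M) {n : ℕ} (hn : M ^ n ≤ I) :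
    letI := isLocalRing_quotient hI hn
    maximalIdeal (Λ ⧸ I) ^ n = ⊥ := by
  have := isLocalRing_quotient hI hn
  rw [maximalIdeal_quotient hI hn, ← Ideal.map_pow, eq_bot_iff]
  refine (Ideal.map_mono hn).trans ?_
  rw [Ideal.map_le_iff_le_comap]
  intro x hx
  rw [Ideal.mem_comap, Ideal.Quotient.eq_zero_iff_mem.mpr hx]
  exact Submodule.zero_mem _

theorem maximalIdeal_quotient' [hM : M.IsMaximal] [IsLocalRing (Λ ⧸ I)] (hI : I ≤ M) :
    maximalIdeal (Λ ⧸ I) = M.map (Ideal.Quotient.mk I) := by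
  have hsurj : Function.Surjective (Ideal.Quotient.mk I) := Ideal.Quotient.mk_surjective
  have hker : RingHom.ker (Ideal.Quotient.mk I) ≤ M := by rwa [Ideal.mk_ker]
  have : (M.map (Ideal.Quotient.mk I)).IsMaximal :=
    Ideal.IsMaximal.map_of_surjective_of_ker_le hsurj hker
  exact (IsLocalRing.eq_maximalIdeal this).symm

theorem map_pow_eq_bot {n : ℕ} (hn : M ^ n ≤ I) :
    (M.map (Ideal.Quotient.mk I)) ^ n = ⊥ := by
  rw [← Ideal.map_pow, eq_bot_iff]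
  refine (Ideal.map_mono hn).trans ?_
  rw [Ideal.map_le_iff_le_comap]
  intro x hx
  rw [Ideal.mem_comap, Ideal.Quotient.eq_zero_iff_mem.mpr hx]
  exact Submodule.zero_mem _

/-- A set of ideals with finite quotients of bounded size, closed under `⊓`, has a least element. -/
theorem exists_least_of_card_bound {S : Set (Ideal Λ)} (hne : S.Nonempty)
    (hinf : ∀ I ∈ S, ∀ J ∈ S, I ⊓ J ∈ S) (hfin : ∀ I ∈ S, Finite (Λ ⧸ I))
    (B : ℕ) (hB : ∀ I ∈ S, Nat.card (Λ ⧸ I) ≤ B) : ∃ I₀ ∈ S, ∀ J ∈ S, I₀ ≤ J := by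
  classical
  set T : Set ℕ := (fun I : Ideal Λ => Nat.card (Λ ⧸ I)) '' S with hT
  have hTne : T.Nonempty := hne.image _
  have hTb : BddAbove T := ⟨B, by rintro _ ⟨I, hI, rfl⟩; exact hB I hI⟩
  obtain ⟨I₀, hI₀, hcard⟩ := Nat.sSup_mem hTne hTb
  refine ⟨I₀, hI₀, fun J hJ => ?_⟩
  have hIJ : I₀ ⊓ J ∈ S := hinf I₀ hI₀ J hJ
  have := hfin _ hIJ
  have := hfin _ hI₀
  have hle : Nat.card (Λ ⧸ (I₀ ⊓ J)) ≤ Nat.card (Λ ⧸ I₀) := by
    have h1 : Nat.card (Λ ⧸ (I₀ ⊓ J)) ∈ T := ⟨_, hIJ, rfl⟩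
    have h2 := le_csSup hTb h1
    simpa [hcard] using h2
  have hsurj : Function.Surjective (Ideal.Quotient.factor (inf_le_left : I₀ ⊓ J ≤ I₀)) :=
    Ideal.Quotient.factor_surjective _
  have hbij := hsurj.bijective_of_nat_card_le hle
  intro x hx
  have h0 : Ideal.Quotient.factor (inf_le_left : I₀ ⊓ J ≤ I₀) (Ideal.Quotient.mk _ x) = 0 := by
    rw [Ideal.Quotient.factor_mk, Ideal.Quotient.eq_zero_iff_mem]
    exact hx
  have h1 : Ideal.Quotient.mk (I₀ ⊓ J) x = 0 := hbij.injective (by rw [h0, map_zero])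
  rw [Ideal.Quotient.eq_zero_iff_mem] at h1
  exact h1.2

end Quot

section Family

variable (𝒪 : Type*) [CommRing 𝒪] [IsLocalRing 𝒪]

/-- An admissible family of ideals of an `𝒪`-algebra `Λ`: the candidates for the finite levels of
a pro-representing ring. -/
structure IsAdmissibleFamily (Λ : Type*) [CommRing Λ] [Algebra 𝒪 Λ] (M : Ideal Λ)
    (𝓘 : Set (Ideal Λ)) : Prop where
  isMaximal : M.IsMaximal
  residue_surjective : Function.Surjective (Ideal.Quotient.mk M ∘ algebraMap 𝒪 Λ)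
  le : ∀ I ∈ 𝓘, I ≤ M
  pow_le : ∀ I ∈ 𝓘, ∃ n, M ^ n ≤ I
  finite : ∀ I ∈ 𝓘, Finite (Λ ⧸ I)
  inf_mem : ∀ I ∈ 𝓘, ∀ J ∈ 𝓘, I ⊓ J ∈ 𝓘
  mem_of_le : ∀ I ∈ 𝓘, ∀ J : Ideal Λ, I ≤ J → J ≤ M → J ∈ 𝓘
  max_mem : M ∈ 𝓘
  tangent_bound : ∃ B : ℕ, ∀ I ∈ 𝓘, M ^ 2 ≤ I →
    (maximalIdeal 𝒪).map (algebraMap 𝒪 Λ) ≤ I → Nat.card (Λ ⧸ I) ≤ B

end Family

end Fermat.Agent.S53.ProRep
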