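import Fermat.Agent.S53.ProRep.Basic

set_option autoImplicit false

namespace Fermat.Agent.S53.ProRep

open IsLocalRing

namespace IsAdmissibleFamily

variable {𝒪 : Type*} [CommRing 𝒪] [IsLocalRing 𝒪]
variable {Λ : Type*} [CommRing Λ] [Algebra 𝒪 Λ] {M : Ideal Λ} {𝓘 : Set (Ideal Λ)}

theorem algebraMap_mem (h : IsAdmissibleFamily 𝒪 Λ M 𝓘) {a : 𝒪} (ha : a ∈ maximalIdeal 𝒪) :
    algebraMap 𝒪 Λ a ∈ M := by
  haveI := h.isMaximal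
  letI := Ideal.Quotient.field M
  set f : 𝒪 →+* Λ ⧸ M := (Ideal.Quotient.mk M).comp (algebraMap 𝒪 Λ) with hf
  have hsurj : Function.Surjective f := h.residue_surjective
  have hmax : (RingHom.ker f).IsMaximal := RingHom.ker_isMaximal_of_surjective f hsurj
  have hker : RingHom.ker f = maximalIdeal 𝒪 := IsLocalRing.eq_maximalIdeal hmax
  have : a ∈ RingHom.ker f := by rw [hker]; exact ha
  rw [RingHom.mem_ker, hf, RingHom.comp_apply, Ideal.Quotient.eq_zero_iff_mem] at this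
  exact this

theorem map_maximalIdeal_le (h : IsAdmissibleFamily 𝒪 Λ M 𝓘) :
    (maximalIdeal 𝒪).map (algebraMap 𝒪 Λ) ≤ M := by
  rw [Ideal.map_le_iff_le_comap]
  intro a ha
  exact h.algebraMap_mem ha

theorem isLocalRing_quotient (h : IsAdmissibleFamily 𝒪 Λ M 𝓘) {I : Ideal Λ} (hI : I ∈ 𝓘) :
    IsLocalRing (Λ ⧸ I) := by
  haveI := h.isMaximal
  obtain ⟨n, hn⟩ := h.pow_le I hI
  exact ProRep.isLocalRing_quotient (h.le I hI) hn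

theorem exists_sub_mem (h : IsAdmissibleFamily 𝒪 Λ M 𝓘) (x : Λ) :
    ∃ a : 𝒪, x - algebraMap 𝒪 Λ a ∈ M := by
  obtain ⟨a, ha⟩ := h.residue_surjective (Ideal.Quotient.mk M x)
  refine ⟨a, ?_⟩
  rw [← Ideal.Quotient.eq_zero_iff_mem, map_sub, sub_eq_zero]
  exact ha.symm

/-- The least element of `{I ∈ 𝓘 | M ^ 2 ≤ I, 𝔪_𝒪 Λ ≤ I}`. -/
theorem exists_least_two (h : IsAdmissibleFamily 𝒪 Λ M 𝓘) :
    ∃ I₂ ∈ 𝓘, M ^ 2 ≤ I₂ ∧ (maximalIdeal 𝒪).map (algebraMap 𝒪 Λ) ≤ I₂ ∧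
      ∀ J ∈ 𝓘, M ^ 2 ≤ J → (maximalIdeal 𝒪).map (algebraMap 𝒪 Λ) ≤ J → I₂ ≤ J := by
  obtain ⟨B, hB⟩ := h.tangent_bound
  set S : Set (Ideal Λ) :=
    {I | I ∈ 𝓘 ∧ M ^ 2 ≤ I ∧ (maximalIdeal 𝒪).map (algebraMap 𝒪 Λ) ≤ I} with hS
  have hne : S.Nonempty := ⟨M, h.max_mem, Ideal.pow_le_self two_ne_zero, h.map_maximalIdeal_le⟩
  have hinf : ∀ I ∈ S, ∀ J ∈ S, I ⊓ J ∈ S := by
    rintro I ⟨hI, hI2, hIm⟩ J ⟨hJ, hJ2, hJm⟩
    exact ⟨h.inf_mem I hI J hJ, le_inf hI2 hJ2, le_inf hIm hJm⟩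
  obtain ⟨I₂, ⟨hI₂, h2, hm⟩, hmin⟩ := exists_least_of_card_bound hne hinf
    (fun I hI => h.finite I hI.1) B (fun I hI => hB I hI.1 hI.2.1 hI.2.2)
  exact ⟨I₂, hI₂, h2, hm, fun J hJ hJ2 hJm => hmin J ⟨hJ, hJ2, hJm⟩⟩

/-- Finitely many elements of `M` generating `M` modulo the least ideal `I₂`. -/
theorem exists_generators (h : IsAdmissibleFamily 𝒪 Λ M 𝓘) :
    ∃ (d : ℕ) (x : Fin d → Λ), (∀ i, x i ∈ M) ∧
      ∀ J ∈ 𝓘, M ≤ Ideal.span (Set.range x) ⊔ J ⊔ M ^ 2 ⊔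
        (maximalIdeal 𝒪).map (algebraMap 𝒪 Λ) := by
  obtain ⟨I₂, hI₂, h2, hm, hmin⟩ := h.exists_least_two
  haveI := h.finite I₂ hI₂
  have hfin : (M.map (Ideal.Quotient.mk I₂) : Set (Λ ⧸ I₂)).Finite := Set.toFinite _
  obtain ⟨d, f, hf⟩ := hfin.fin_embedding
  have hmem : ∀ i : Fin d, ∃ x ∈ M, Ideal.Quotient.mk I₂ x = f i := by
    intro i
    have : f i ∈ (M.map (Ideal.Quotient.mk I₂) : Set (Λ ⧸ I₂)) := hf ▸ Set.mem_range_self i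
    exact (Ideal.mem_map_iff_of_surjective _ Ideal.Quotient.mk_surjective).mp this
  choose x hxM hx using hmem
  refine ⟨d, x, hxM, fun J hJ => ?_⟩
  have hJ' : J ⊔ M ^ 2 ⊔ (maximalIdeal 𝒪).map (algebraMap 𝒪 Λ) ∈ 𝓘 :=
    h.mem_of_le J hJ _ (le_sup_of_le_left le_sup_left)
      (sup_le (sup_le (h.le J hJ) (Ideal.pow_le_self two_ne_zero)) h.map_maximalIdeal_le)
  have hle : I₂ ≤ J ⊔ M ^ 2 ⊔ (maximalIdeal 𝒪).map (algebraMap 𝒪 Λ) :=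
    hmin _ hJ' (le_sup_of_le_left le_sup_right) le_sup_right
  intro m hmM
  have : Ideal.Quotient.mk I₂ m ∈ (M.map (Ideal.Quotient.mk I₂) : Set (Λ ⧸ I₂)) :=
    Ideal.mem_map_of_mem _ hmM
  rw [← hf] at this
  obtain ⟨i, hi⟩ := this
  have hsub : m - x i ∈ I₂ := by
    rw [← Ideal.Quotient.eq_zero_iff_mem, map_sub, hx i, hi, sub_self]
  have h1 : x i ∈ Ideal.span (Set.range x) := Ideal.subset_span (Set.mem_range_self i)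
  have h2' : m = x i + (m - x i) := by ring
  rw [h2']
  have h3 : m - x i ∈ J ⊔ M ^ 2 ⊔ (maximalIdeal 𝒪).map (algebraMap 𝒪 Λ) := hle hsub
  have : x i + (m - x i) ∈ Ideal.span (Set.range x) ⊔
      (J ⊔ M ^ 2 ⊔ (maximalIdeal 𝒪).map (algebraMap 𝒪 Λ)) := Submodule.add_mem_sup h1 h3
  simpa [sup_assoc] using this

end IsAdmissibleFamily

end Fermat.Agent.S53.ProRep
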