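import Fermat.Agent.S53.ProRep.Surj

set_option autoImplicit false
set_option linter.style.haveILetI false

namespace Fermat.Agent.S53.ProRep

open IsLocalRing

/-- every polynomial is congruent to a constant modulo the ideal of variables -/
theorem exists_C_sub_mem_span_X {R : Type*} [CommRing R] {σ : Type*} (p : MvPolynomial σ R) :
    ∃ c : R, p - MvPolynomial.C c ∈ Ideal.span (Set.range (MvPolynomial.X : σ → MvPolynomial σ R)) := by
  induction p using MvPolynomial.induction_on with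
  | C a => exact ⟨a, by simp⟩
  | add p q hp hq =>
    obtain ⟨a, ha⟩ := hp
    obtain ⟨b, hb⟩ := hq
    refine ⟨a + b, ?_⟩
    have : p + q - MvPolynomial.C (a + b) = (p - MvPolynomial.C a) + (q - MvPolynomial.C b) := by
      rw [map_add]; ring
    rw [this]
    exact Ideal.add_mem _ ha hb
  | mul_X p i _ =>
    refine ⟨0, ?_⟩
    rw [map_zero, sub_zero]
    exact Ideal.mul_mem_left _ _ (Ideal.subset_span (Set.mem_range_self i))

namespace IsAdmissibleFamily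

variable {𝒪 : Type*} [CommRing 𝒪] [IsDomain 𝒪] [IsDiscreteValuationRing 𝒪]
variable {Λ : Type*} [CommRing Λ] [Algebra 𝒪 Λ] {M : Ideal Λ} {𝓘 : Set (Ideal Λ)}

theorem exists_generators_cons (h : IsAdmissibleFamily 𝒪 Λ M 𝓘) {ϖ : 𝒪} (hϖ : Irreducible ϖ) :
    ∃ (d : ℕ) (y : Fin (d + 1) → Λ), y 0 = algebraMap 𝒪 Λ ϖ ∧ (∀ i, y i ∈ M) ∧
      ∀ J ∈ 𝓘, M ≤ Ideal.span (Set.range y) ⊔ J ⊔ M ^ 2 := by
  obtain ⟨d, x, hxM, hx⟩ := h.exists_generators
  have hϖM : algebraMap 𝒪 Λ ϖ ∈ M := by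
    apply h.algebraMap_mem
    rw [hϖ.maximalIdeal_eq]
    exact Ideal.mem_span_singleton_self ϖ
  refine ⟨d, Fin.cons (algebraMap 𝒪 Λ ϖ) x, Fin.cons_zero _ _, ?_, fun J hJ => ?_⟩
  · intro i
    refine Fin.cases ?_ (fun j => ?_) i
    · rw [Fin.cons_zero]; exact hϖM
    · rw [Fin.cons_succ]; exact hxM j
  · have h1 : Ideal.span (Set.range x) ≤
        Ideal.span (Set.range (Fin.cons (algebraMap 𝒪 Λ ϖ) x : Fin (d + 1) → Λ)) := by
      apply Ideal.span_mono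
      rintro _ ⟨j, rfl⟩
      exact ⟨j.succ, Fin.cons_succ _ _ _⟩
    have h2 : (maximalIdeal 𝒪).map (algebraMap 𝒪 Λ) ≤
        Ideal.span (Set.range (Fin.cons (algebraMap 𝒪 Λ ϖ) x : Fin (d + 1) → Λ)) := by
      rw [hϖ.maximalIdeal_eq, Ideal.map_span, Set.image_singleton, Ideal.span_le,
        Set.singleton_subset_iff]
      exact Ideal.subset_span ⟨0, Fin.cons_zero _ _⟩
    refine (hx J hJ).trans ?_
    refine sup_le (sup_le (sup_le ?_ ?_) ?_) ?_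
    · exact le_sup_of_le_left (le_sup_of_le_left h1)
    · exact le_sup_of_le_left le_sup_right
    · exact le_sup_right
    · exact le_sup_of_le_left (le_sup_of_le_left h2)

variable [Finite (ResidueField 𝒪)]

/-- Uniform bound for the size of the members of the family containing `M ^ n`. -/
theorem exists_card_bound (h : IsAdmissibleFamily 𝒪 Λ M 𝓘) (n : ℕ) :
    ∃ B : ℕ, ∀ I ∈ 𝓘, M ^ n ≤ I → Nat.card (Λ ⧸ I) ≤ B := by
  obtain ⟨ϖ, hϖ⟩ := IsDiscreteValuationRing.exists_irreducible 𝒪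
  obtain ⟨d, y, -, hyM, hy⟩ := h.exists_generators_cons hϖ
  set S := MvPolynomial (Fin (d + 1)) 𝒪 with hS
  set 𝔠 : Ideal S := Ideal.span (Set.range MvPolynomial.X) ⊔
    (maximalIdeal 𝒪).map (MvPolynomial.C : 𝒪 →+* S) with h𝔠
  -- `S ⧸ 𝔠` is a quotient of the residue field
  have hfin1 : Finite (S ⧸ 𝔠) := by
    have hle : maximalIdeal 𝒪 ≤ RingHom.ker ((Ideal.Quotient.mk 𝔠).comp (MvPolynomial.C : 𝒪 →+* S)) := by
      intro a ha
      rw [RingHom.mem_ker, RingHom.comp_apply, Ideal.Quotient.eq_zero_iff_mem]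
      exact le_sup_right (a := Ideal.span (Set.range MvPolynomial.X))
        (Ideal.mem_map_of_mem _ ha)
    let g : ResidueField 𝒪 →+* S ⧸ 𝔠 := Ideal.Quotient.lift (maximalIdeal 𝒪)
      ((Ideal.Quotient.mk 𝔠).comp (MvPolynomial.C : 𝒪 →+* S))
      (fun a ha => RingHom.mem_ker.mp (hle ha))
    have hg : Function.Surjective g := by
      intro z
      obtain ⟨p, rfl⟩ := Ideal.Quotient.mk_surjective z
      obtain ⟨c, hc⟩ := exists_C_sub_mem_span_X p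
      refine ⟨IsLocalRing.residue 𝒪 c, ?_⟩
      change Ideal.Quotient.lift _ _ _ (Ideal.Quotient.mk _ c) = _
      rw [Ideal.Quotient.lift_mk, RingHom.comp_apply, eq_comm, ← sub_eq_zero, ← map_sub,
        Ideal.Quotient.eq_zero_iff_mem]
      exact le_sup_left (b := (maximalIdeal 𝒪).map (MvPolynomial.C : 𝒪 →+* S)) hc
    exact Finite.of_surjective g hg
  have hfg : 𝔠.FG := IsNoetherian.noetherian 𝔠
  have hfinn : Finite (S ⧸ 𝔠 ^ n) := Ideal.finite_quotient_pow hfg n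
  refine ⟨Nat.card (S ⧸ 𝔠 ^ n), fun I hI hIn => ?_⟩
  haveI := h.isMaximal
  set φ : S →ₐ[𝒪] Λ ⧸ I := (Ideal.Quotient.mkₐ 𝒪 I).comp (MvPolynomial.aeval y) with hφ
  have hφs : Function.Surjective φ := h.aeval_surjective y hyM hy hI
  have hφ𝔠 : 𝔠.map (φ : S →+* Λ ⧸ I) ≤ M.map (Ideal.Quotient.mk I) := by
    rw [h𝔠, Ideal.map_sup, sup_le_iff]
    constructor
    · rw [Ideal.map_span, Ideal.span_le]
      rintro _ ⟨_, ⟨i, rfl⟩, rfl⟩
      have : (φ : S →+* Λ ⧸ I) (MvPolynomial.X i) = Ideal.Quotient.mk I (y i) := by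
        change Ideal.Quotient.mk I (MvPolynomial.aeval y (MvPolynomial.X i)) = _
        rw [MvPolynomial.aeval_X]
      rw [this]
      exact Ideal.mem_map_of_mem _ (hyM i)
    · rw [Ideal.map_map, Ideal.map_le_iff_le_comap]
      intro a ha
      rw [Ideal.mem_comap]
      have : ((φ : S →+* Λ ⧸ I).comp (MvPolynomial.C : 𝒪 →+* S)) a =
          Ideal.Quotient.mk I (algebraMap 𝒪 Λ a) := by
        change Ideal.Quotient.mk I (MvPolynomial.aeval y (MvPolynomial.C a)) = _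
        rw [MvPolynomial.aeval_C]
      rw [this]
      exact Ideal.mem_map_of_mem _ (h.algebraMap_mem ha)
  have hker : 𝔠 ^ n ≤ RingHom.ker (φ : S →+* Λ ⧸ I) := by
    intro p hp
    have h1 : (φ : S →+* Λ ⧸ I) p ∈ (𝔠 ^ n).map (φ : S →+* Λ ⧸ I) := Ideal.mem_map_of_mem _ hp
    rw [Ideal.map_pow] at h1
    have h2 := Ideal.pow_right_mono hφ𝔠 n h1
    rw [map_pow_eq_bot hIn, Ideal.mem_bot] at h2
    exact h2
  let ψ : S ⧸ 𝔠 ^ n →+* Λ ⧸ I := Ideal.Quotient.lift (𝔠 ^ n) (φ : S →+* Λ ⧸ I)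
    (fun a ha => RingHom.mem_ker.mp (hker ha))
  have hψ : Function.Surjective ψ := by
    intro z
    obtain ⟨p, rfl⟩ := hφs z
    exact ⟨Ideal.Quotient.mk _ p, Ideal.Quotient.lift_mk _ _ _⟩
  exact Nat.card_le_card_of_surjective ψ hψ

theorem exists_least_pow (h : IsAdmissibleFamily 𝒪 Λ M 𝓘) (n : ℕ) (hn : 1 ≤ n) :
    ∃ I ∈ 𝓘, M ^ n ≤ I ∧ ∀ J ∈ 𝓘, M ^ n ≤ J → I ≤ J := by
  obtain ⟨B, hB⟩ := h.exists_card_bound n
  set S : Set (Ideal Λ) := {I | I ∈ 𝓘 ∧ M ^ n ≤ I} with hS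
  have hne : S.Nonempty := ⟨M, h.max_mem, Ideal.pow_le_self (by omega)⟩
  have hinf : ∀ I ∈ S, ∀ J ∈ S, I ⊓ J ∈ S := by
    rintro I ⟨hI, hIn⟩ J ⟨hJ, hJn⟩
    exact ⟨h.inf_mem I hI J hJ, le_inf hIn hJn⟩
  obtain ⟨I, ⟨hI, hIn⟩, hmin⟩ := exists_least_of_card_bound hne hinf
    (fun I hI => h.finite I hI.1) B (fun I hI => hB I hI.1 hI.2)
  exact ⟨I, hI, hIn, fun J hJ hJn => hmin J ⟨hJ, hJn⟩⟩

open Classical in
/-- The least member of the family containing `M ^ n` (and `⊤` for `n = 0`). -/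
noncomputable def Iseq (h : IsAdmissibleFamily 𝒪 Λ M 𝓘) (n : ℕ) : Ideal Λ :=
  if hn : 1 ≤ n then Classical.choose (h.exists_least_pow n hn) else ⊤

theorem Iseq_zero (h : IsAdmissibleFamily 𝒪 Λ M 𝓘) : h.Iseq 0 = ⊤ := by
  simp [Iseq]

theorem Iseq_mem (h : IsAdmissibleFamily 𝒪 Λ M 𝓘) {n : ℕ} (hn : 1 ≤ n) : h.Iseq n ∈ 𝓘 := by
  rw [Iseq, dif_pos hn]
  exact (Classical.choose_spec (h.exists_least_pow n hn)).1

theorem pow_le_Iseq (h : IsAdmissibleFamily 𝒪 Λ M 𝓘) (n : ℕ) : M ^ n ≤ h.Iseq n := by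
  by_cases hn : 1 ≤ n
  · rw [Iseq, dif_pos hn]
    exact (Classical.choose_spec (h.exists_least_pow n hn)).2.1
  · rw [Iseq, dif_neg hn]
    exact le_top

theorem Iseq_le (h : IsAdmissibleFamily 𝒪 Λ M 𝓘) {n : ℕ} (hn : 1 ≤ n) {J : Ideal Λ} (hJ : J ∈ 𝓘)
    (hJn : M ^ n ≤ J) : h.Iseq n ≤ J := by
  rw [Iseq, dif_pos hn]
  exact (Classical.choose_spec (h.exists_least_pow n hn)).2.2 J hJ hJn

theorem Iseq_le_max (h : IsAdmissibleFamily 𝒪 Λ M 𝓘) {n : ℕ} (hn : 1 ≤ n) : h.Iseq n ≤ M :=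
  h.le _ (h.Iseq_mem hn)

theorem Iseq_one (h : IsAdmissibleFamily 𝒪 Λ M 𝓘) : h.Iseq 1 = M := by
  apply le_antisymm (h.Iseq_le_max le_rfl)
  have := h.pow_le_Iseq 1
  rwa [pow_one] at this

theorem Iseq_succ_le (h : IsAdmissibleFamily 𝒪 Λ M 𝓘) (n : ℕ) : h.Iseq (n + 1) ≤ h.Iseq n := by
  by_cases hn : 1 ≤ n
  · exact h.Iseq_le (by omega) (h.Iseq_mem hn)
      ((Ideal.pow_le_pow_right (Nat.le_succ n)).trans (h.pow_le_Iseq n))
  · have : n = 0 := by omega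
    rw [this, Iseq_zero]
    exact le_top

theorem Iseq_antitone (h : IsAdmissibleFamily 𝒪 Λ M 𝓘) : Antitone h.Iseq :=
  antitone_nat_of_succ_le h.Iseq_succ_le

theorem Iseq_eq_sup (h : IsAdmissibleFamily 𝒪 Λ M 𝓘) (n : ℕ) :
    h.Iseq n = h.Iseq (n + 1) ⊔ M ^ n := by
  apply le_antisymm
  · by_cases hn : 1 ≤ n
    · apply h.Iseq_le hn _ le_sup_right
      exact h.mem_of_le _ (h.Iseq_mem (by omega)) _ le_sup_left
        (sup_le (h.Iseq_le_max (by omega)) (Ideal.pow_le_self (by omega)))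
    · have : n = 0 := by omega
      rw [this, pow_zero, Ideal.one_eq_top]
      exact le_sup_right
  · exact sup_le (h.Iseq_succ_le n) (h.pow_le_Iseq n)

end IsAdmissibleFamily

end Fermat.Agent.S53.ProRep
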