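import Fermat.Agent.S53.ProRep.Quot

set_option autoImplicit false
set_option linter.style.haveILetI false

/-!
# Pro-representability: the universal map `u : Λ → R` and the mapping property
-/

namespace Fermat.Agent.S53.ProRep

open IsLocalRing

section General

/-- An `𝒪`-algebra homomorphism of local `𝒪`-algebras into one whose residue field is that of
`𝒪` is automatically local. -/
theorem isLocalHom_of_residue_surjective {𝒪 R A : Type*} [CommRing 𝒪] [CommRing R] [IsLocalRing R]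
    [Algebra 𝒪 R] [CommRing A] [IsLocalRing A] [Algebra 𝒪 A] [IsLocalHom (algebraMap 𝒪 A)]
    (hA : Function.Surjective (residue A ∘ algebraMap 𝒪 A)) (ψ : R →ₐ[𝒪] A) :
    IsLocalHom (ψ : R →+* A) := by
  constructor
  intro r hr
  by_contra hnr
  have hrm : r ∈ maximalIdeal R := (IsLocalRing.mem_maximalIdeal r).mpr hnr
  obtain ⟨a, ha⟩ := hA (residue A (ψ r))
  have h1 : ψ r - algebraMap 𝒪 A a ∈ maximalIdeal A := by
    rw [← IsLocalRing.residue_eq_zero_iff, map_sub, sub_eq_zero]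
    exact ha.symm
  have h2 : IsUnit (algebraMap 𝒪 A a) := by
    by_contra hna
    have h3 : algebraMap 𝒪 A a ∈ maximalIdeal A := (IsLocalRing.mem_maximalIdeal _).mpr hna
    have h4 : ψ r ∈ maximalIdeal A := by
      have : ψ r = (ψ r - algebraMap 𝒪 A a) + algebraMap 𝒪 A a := by ring
      rw [this]
      exact Ideal.add_mem _ h1 h3
    exact (IsLocalRing.mem_maximalIdeal _).mp h4 hr
  have h5 : IsUnit a := IsUnit.of_map (algebraMap 𝒪 A) a h2
  have h6 : IsUnit (r - algebraMap 𝒪 R a) := by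
    by_contra hn
    have h7 : r - algebraMap 𝒪 R a ∈ maximalIdeal R := (IsLocalRing.mem_maximalIdeal _).mpr hn
    have h8 : algebraMap 𝒪 R a ∈ maximalIdeal R := by
      have : algebraMap 𝒪 R a = r - (r - algebraMap 𝒪 R a) := by ring
      rw [this]
      exact Ideal.sub_mem _ hrm h7
    exact (IsLocalRing.mem_maximalIdeal _).mp h8 (h5.map (algebraMap 𝒪 R))
  have h9 : IsUnit (ψ (r - algebraMap 𝒪 R a)) := h6.map ψ
  rw [map_sub, AlgHom.commutes] at h9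
  exact (IsLocalRing.mem_maximalIdeal _).mp h1 h9

/-- A local homomorphism maps powers of the maximal ideal into powers of the maximal ideal. -/
theorem map_mem_maximalIdeal_pow {R A : Type*} [CommRing R] [IsLocalRing R] [CommRing A]
    [IsLocalRing A] (ψ : R →+* A) [IsLocalHom ψ] (n : ℕ) {r : R} (hr : r ∈ maximalIdeal R ^ n) :
    ψ r ∈ maximalIdeal A ^ n := by
  have h1 : maximalIdeal R ≤ (maximalIdeal A).comap ψ := by
    intro x hx
    rw [Ideal.mem_comap, IsLocalRing.mem_maximalIdeal]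
    intro hu
    exact (IsLocalRing.mem_maximalIdeal _).mp hx (IsUnit.of_map ψ x hu)
  have h2 : maximalIdeal R ^ n ≤ (maximalIdeal A ^ n).comap ψ :=
    (Ideal.pow_right_mono h1 n).trans (Ideal.le_comap_pow ψ n)
  exact h2 hr

/-- Uniqueness of maps out of `R` that agree on a dense subalgebra. -/
theorem algHom_ext_of_dense {𝒪 Λ R A : Type*} [CommRing 𝒪] [CommRing Λ] [Algebra 𝒪 Λ]
    [CommRing R] [IsLocalRing R] [Algebra 𝒪 R] [CommRing A] [IsLocalRing A] [Algebra 𝒪 A]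
    [IsHausdorff (maximalIdeal A) A] (u : Λ →ₐ[𝒪] R)
    (hu : ∀ n, Function.Surjective ((Ideal.Quotient.mkₐ 𝒪 (maximalIdeal R ^ n)).comp u))
    (ψ ψ' : R →ₐ[𝒪] A) (hψ : IsLocalHom (ψ : R →+* A)) (hψ' : IsLocalHom (ψ' : R →+* A))
    (hc : ψ.comp u = ψ'.comp u) : ψ = ψ' := by
  ext r
  rw [← sub_eq_zero]
  apply IsHausdorff.haus (inferInstance : IsHausdorff (maximalIdeal A) A)
  intro n
  rw [SModEq.zero, smul_eq_mul, Ideal.mul_top]
  obtain ⟨x, hx⟩ := hu n (Ideal.Quotient.mk _ r)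
  have h1 : r - u x ∈ maximalIdeal R ^ n := by
    rw [← Ideal.Quotient.eq_zero_iff_mem, map_sub, sub_eq_zero]
    exact hx.symm
  have h2 : ψ (u x) = ψ' (u x) := congrArg (fun f => f x) hc
  have h3 : ψ r - ψ' r = (ψ : R →+* A) (r - u x) - (ψ' : R →+* A) (r - u x) := by
    simp only [RingHom.coe_coe, map_sub, h2]
    ring
  rw [h3]
  exact Ideal.sub_mem _ (map_mem_maximalIdeal_pow (ψ : R →+* A) n h1)
    (map_mem_maximalIdeal_pow (ψ' : R →+* A) n h1)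

end General

variable {𝒪 : Type*} [CommRing 𝒪] [IsDomain 𝒪] [IsDiscreteValuationRing 𝒪]
  [Finite (ResidueField 𝒪)]
variable {Λ : Type*} [CommRing Λ] [Algebra 𝒪 Λ] {M : Ideal Λ} {𝓘 : Set (Ideal Λ)}

namespace Coords

variable {h : IsAdmissibleFamily 𝒪 Λ M 𝓘} {ϖ : 𝒪} {d : ℕ} (c : Coords h ϖ d)

theorem ker_theta_algHom (n : ℕ) : RingHom.ker (c.theta n) = maximalIdeal c.R ^ n :=
  c.ker_theta' n

/-- the identification of the `n`-th level of `R` with `Λ ⧸ Iseq n` -/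
noncomputable def e (n : ℕ) : (c.R ⧸ maximalIdeal c.R ^ n) ≃ₐ[𝒪] Λ ⧸ h.Iseq n :=
  (Ideal.quotientEquivAlgOfEq 𝒪 (c.ker_theta_algHom n).symm).trans
    (Ideal.quotientKerAlgEquivOfSurjective (c.theta_surjective n))

theorem e_mk (n : ℕ) (r : c.R) :
    c.e n (Ideal.Quotient.mk (maximalIdeal c.R ^ n) r) = c.theta n r := rfl

theorem e_symm_theta (n : ℕ) (r : c.R) :
    (c.e n).symm (c.theta n r) = Ideal.Quotient.mk (maximalIdeal c.R ^ n) r := by
  rw [← c.e_mk n r, AlgEquiv.symm_apply_apply]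

/-- the `n`-th level of the universal map -/
noncomputable def f (n : ℕ) : Λ →ₐ[𝒪] c.R ⧸ maximalIdeal c.R ^ n :=
  ((c.e n).symm : (Λ ⧸ h.Iseq n) →ₐ[𝒪] c.R ⧸ maximalIdeal c.R ^ n).comp
    (Ideal.Quotient.mkₐ 𝒪 (h.Iseq n))

theorem f_apply (n : ℕ) (x : Λ) :
    c.f n x = (c.e n).symm (Ideal.Quotient.mk (h.Iseq n) x) := rfl

theorem f_surjective (n : ℕ) : Function.Surjective (c.f n) := by
  intro z
  obtain ⟨x, hx⟩ := Ideal.Quotient.mk_surjective (c.e n z)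
  refine ⟨x, ?_⟩
  rw [f_apply, hx, AlgEquiv.symm_apply_apply]

theorem f_eq_zero_iff (n : ℕ) (x : Λ) : c.f n x = 0 ↔ x ∈ h.Iseq n := by
  rw [f_apply, map_eq_zero_iff _ (c.e n).symm.injective, Ideal.Quotient.eq_zero_iff_mem]

theorem f_compat {m n : ℕ} (hmn : m ≤ n) :
    (Ideal.Quotient.factorₐ 𝒪 (Ideal.pow_le_pow_right hmn)).comp (c.f n) = c.f m := by
  ext x
  obtain ⟨r, hr⟩ := c.theta_surjective n (Ideal.Quotient.mk (h.Iseq n) x)
  have hr' : c.theta m r = Ideal.Quotient.mk (h.Iseq m) x := by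
    rw [← c.theta_compat hmn r, hr, Ideal.Quotient.factor_mk]
  rw [AlgHom.comp_apply, f_apply, f_apply, ← hr, ← hr', e_symm_theta, e_symm_theta]
  rfl

/-- the universal map `Λ → R` -/
noncomputable def u : Λ →ₐ[𝒪] c.R :=
  IsAdicComplete.liftAlgHom (maximalIdeal c.R) c.f (fun hle => c.f_compat hle)

theorem mk_u (n : ℕ) (x : Λ) :
    Ideal.Quotient.mk (maximalIdeal c.R ^ n) (c.u x) = c.f n x :=
  IsAdicComplete.mk_liftAlgHom _ _ _ n x

theorem mkₐ_comp_u (n : ℕ) :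
    (Ideal.Quotient.mkₐ 𝒪 (maximalIdeal c.R ^ n)).comp c.u = c.f n :=
  IsAdicComplete.mkₐ_comp_liftAlgHom _ _ _ n

theorem theta_u (n : ℕ) (x : Λ) : c.theta n (c.u x) = Ideal.Quotient.mk (h.Iseq n) x := by
  rw [← c.e_mk n, c.mk_u, f_apply, AlgEquiv.apply_symm_apply]

theorem u_dense (n : ℕ) :
    Function.Surjective ((Ideal.Quotient.mkₐ 𝒪 (maximalIdeal c.R ^ n)).comp c.u) := by
  rw [c.mkₐ_comp_u n]
  exact c.f_surjective n

theorem ker_mkₐ_comp_u (n : ℕ) :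
    RingHom.ker ((Ideal.Quotient.mkₐ 𝒪 (maximalIdeal c.R ^ n)).comp c.u) = h.Iseq n := by
  ext x
  rw [RingHom.mem_ker, c.mkₐ_comp_u n, c.f_eq_zero_iff]

section MapOut

variable {A : Type*} [CommRing A] [IsLocalRing A] [Algebra 𝒪 A] (φ : Λ →ₐ[𝒪] A)

omit [IsDomain 𝒪] [IsDiscreteValuationRing 𝒪] [Finite (ResidueField 𝒪)] in
theorem mem_ker_level_iff (n : ℕ) (x : Λ) :
    x ∈ RingHom.ker ((Ideal.Quotient.mkₐ 𝒪 (maximalIdeal A ^ n)).comp φ) ↔
      φ x ∈ maximalIdeal A ^ n := by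
  rw [RingHom.mem_ker, AlgHom.comp_apply, Ideal.Quotient.mkₐ_eq_mk, Ideal.Quotient.eq_zero_iff_mem]

include h in
omit [Finite (ResidueField 𝒪)] in
theorem le_comap_of_level_one
    (hφ : RingHom.ker ((Ideal.Quotient.mkₐ 𝒪 (maximalIdeal A ^ 1)).comp φ) ∈ 𝓘) :
    M ≤ (maximalIdeal A).comap (φ : Λ →+* A) := by
  obtain ⟨j, hj⟩ := h.pow_le _ hφ
  have hprime : ((maximalIdeal A).comap (φ : Λ →+* A)).IsPrime := Ideal.comap_isPrime _ _
  apply hprime.le_of_pow_le (n := j)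
  intro x hx
  have := hj hx
  rw [mem_ker_level_iff, pow_one] at this
  exact this

include h in
omit [Finite (ResidueField 𝒪)] in
theorem pow_le_ker_level
    (hφ : RingHom.ker ((Ideal.Quotient.mkₐ 𝒪 (maximalIdeal A ^ 1)).comp φ) ∈ 𝓘) (n : ℕ) :
    M ^ n ≤ RingHom.ker ((Ideal.Quotient.mkₐ 𝒪 (maximalIdeal A ^ n)).comp φ) := by
  have h1 := le_comap_of_level_one (h := h) φ hφ
  have h2 : M ^ n ≤ (maximalIdeal A ^ n).comap (φ : Λ →+* A) :=
    (Ideal.pow_right_mono h1 n).trans (Ideal.le_comap_pow _ n)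
  intro x hx
  rw [mem_ker_level_iff]
  exact h2 hx

theorem Iseq_le_ker_level
    (hφ : ∀ n, 1 ≤ n → RingHom.ker ((Ideal.Quotient.mkₐ 𝒪 (maximalIdeal A ^ n)).comp φ) ∈ 𝓘)
    (n : ℕ) :
    h.Iseq n ≤ RingHom.ker ((Ideal.Quotient.mkₐ 𝒪 (maximalIdeal A ^ n)).comp φ) := by
  by_cases hn : 1 ≤ n
  · exact h.Iseq_le hn (hφ n hn) (pow_le_ker_level (h := h) φ (hφ 1 le_rfl) n)
  · have : n = 0 := by omega
    subst this
    intro x _
    rw [mem_ker_level_iff, pow_zero, Ideal.one_eq_top]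
    trivial

/-- the `n`-th level of the induced map -/
noncomputable def g
    (hφ : ∀ n, 1 ≤ n → RingHom.ker ((Ideal.Quotient.mkₐ 𝒪 (maximalIdeal A ^ n)).comp φ) ∈ 𝓘)
    (n : ℕ) : (Λ ⧸ h.Iseq n) →ₐ[𝒪] A ⧸ maximalIdeal A ^ n :=
  Ideal.Quotient.liftₐ (h.Iseq n) ((Ideal.Quotient.mkₐ 𝒪 (maximalIdeal A ^ n)).comp φ)
    (fun _ hx => RingHom.mem_ker.mp (Iseq_le_ker_level (h := h) φ hφ n hx))

theorem g_mk
    (hφ : ∀ n, 1 ≤ n → RingHom.ker ((Ideal.Quotient.mkₐ 𝒪 (maximalIdeal A ^ n)).comp φ) ∈ 𝓘)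
    (n : ℕ) (x : Λ) :
    g (h := h) φ hφ n (Ideal.Quotient.mk (h.Iseq n) x) =
      Ideal.Quotient.mk (maximalIdeal A ^ n) (φ x) := rfl

/-- the `n`-th level of the map out of `R` -/
noncomputable def psiLevel
    (hφ : ∀ n, 1 ≤ n → RingHom.ker ((Ideal.Quotient.mkₐ 𝒪 (maximalIdeal A ^ n)).comp φ) ∈ 𝓘)
    (n : ℕ) : c.R →ₐ[𝒪] A ⧸ maximalIdeal A ^ n :=
  (g (h := h) φ hφ n).comp (c.theta n)

theorem psiLevel_compat
    (hφ : ∀ n, 1 ≤ n → RingHom.ker ((Ideal.Quotient.mkₐ 𝒪 (maximalIdeal A ^ n)).comp φ) ∈ 𝓘)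
    {m n : ℕ} (hmn : m ≤ n) :
    (Ideal.Quotient.factorₐ 𝒪 (Ideal.pow_le_pow_right hmn)).comp (c.psiLevel φ hφ n) =
      c.psiLevel φ hφ m := by
  ext r
  obtain ⟨x, hx⟩ := Ideal.Quotient.mk_surjective (c.theta n r)
  have hx' : c.theta m r = Ideal.Quotient.mk (h.Iseq m) x := by
    rw [← c.theta_compat hmn r, ← hx, Ideal.Quotient.factor_mk]
  simp only [psiLevel, AlgHom.comp_apply]
  rw [← hx, hx', g_mk, g_mk]
  rfl

theorem exists_lift [IsAdicComplete (maximalIdeal A) A]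
    (hφ : ∀ n, 1 ≤ n → RingHom.ker ((Ideal.Quotient.mkₐ 𝒪 (maximalIdeal A ^ n)).comp φ) ∈ 𝓘) :
    ∃ ψ : c.R →ₐ[𝒪] A, ψ.comp c.u = φ := by
  refine ⟨IsAdicComplete.liftAlgHom (maximalIdeal A) (c.psiLevel φ hφ)
    (fun hle => c.psiLevel_compat φ hφ hle), ?_⟩
  apply IsAdicComplete.algHom_ext (maximalIdeal A)
  intro n
  ext x
  simp only [AlgHom.comp_apply, Ideal.Quotient.mkₐ_eq_mk]
  rw [IsAdicComplete.mk_liftAlgHom, psiLevel, AlgHom.comp_apply, c.theta_u, g_mk]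

end MapOut

end Coords

/-- **Pro-representability.**  An admissible family of ideals of an `𝒪`-algebra `Λ` is
pro-represented by a complete noetherian local `𝒪`-algebra `R` with residue field that of `𝒪`,
together with `u : Λ → R` with dense image, all of whose finite levels belong to the family,
and through which every map `Λ → A` with all finite levels in the family factors. -/
theorem exists_proRepresenting {𝒪 : Type} [CommRing 𝒪] [IsDomain 𝒪] [IsDiscreteValuationRing 𝒪]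
    [Finite (ResidueField 𝒪)] {Λ : Type} [CommRing Λ] [Algebra 𝒪 Λ] {M : Ideal Λ}
    {𝓘 : Set (Ideal Λ)} (h : IsAdmissibleFamily 𝒪 Λ M 𝓘) :
    ∃ (R : Type) (_ : CommRing R) (_ : IsLocalRing R) (_ : IsNoetherianRing R)
      (_ : IsAdicComplete (maximalIdeal R) R) (_ : Algebra 𝒪 R)
      (_ : IsLocalHom (algebraMap 𝒪 R)) (u : Λ →ₐ[𝒪] R),
      Function.Surjective (residue R ∘ algebraMap 𝒪 R) ∧
      (∀ n, Function.Surjective ((Ideal.Quotient.mkₐ 𝒪 (maximalIdeal R ^ n)).comp u)) ∧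
      (∀ n, 1 ≤ n → RingHom.ker ((Ideal.Quotient.mkₐ 𝒪 (maximalIdeal R ^ n)).comp u) ∈ 𝓘) ∧
      ∀ (A : Type) [CommRing A] [IsLocalRing A] [IsNoetherianRing A]
        [IsAdicComplete (maximalIdeal A) A] [Algebra 𝒪 A] [IsLocalHom (algebraMap 𝒪 A)]
        (φ : Λ →ₐ[𝒪] A),
        (∀ n, 1 ≤ n →
          RingHom.ker ((Ideal.Quotient.mkₐ 𝒪 (maximalIdeal A ^ n)).comp φ) ∈ 𝓘) →
        ∃ ψ : R →ₐ[𝒪] A, ψ.comp u = φ := by
  obtain ⟨ϖ, hϖ⟩ := IsDiscreteValuationRing.exists_irreducible 𝒪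
  obtain ⟨d, ⟨c⟩⟩ := exists_coords h hϖ
  refine ⟨c.R, inferInstance, inferInstance, inferInstance, inferInstance, inferInstance,
    inferInstance, c.u, c.residue_surjective, c.u_dense, ?_, ?_⟩
  · intro n hn
    rw [c.ker_mkₐ_comp_u n]
    exact h.Iseq_mem hn
  · intro A _ _ _ _ _ _ φ hφ
    exact c.exists_lift φ hφ

end Fermat.Agent.S53.ProRep
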