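import Fermat.Agent.S53.ProRep.Ring
import Fermat.Prelude.Thm_IsAdicComplete_of_module_finite

set_option autoImplicit false
set_option linter.style.haveILetI false

/-!
# The pro-representing ring `R = 𝒪⟦X₀,…,X_d⟧ ⧸ J`

`R` is a complete noetherian local `𝒪`-algebra with `R ⧸ 𝔪_R ^ n ≃ Λ ⧸ Iseq n`.
-/

namespace Fermat.Agent.S53.ProRep

open IsLocalRing

variable {𝒪 : Type*} [CommRing 𝒪] [IsDomain 𝒪] [IsDiscreteValuationRing 𝒪]
  [Finite (ResidueField 𝒪)]
variable {Λ : Type*} [CommRing Λ] [Algebra 𝒪 Λ] {M : Ideal Λ} {𝓘 : Set (Ideal Λ)}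

namespace Coords

variable {h : IsAdmissibleFamily 𝒪 Λ M 𝓘} {ϖ : 𝒪} {d : ℕ} (c : Coords h ϖ d)

/-- the pro-representing ring -/
abbrev R : Type _ := MvPowerSeries (Fin (d + 1)) 𝒪 ⧸ c.J

/-- the ideal generated by the variables, in `R` -/
noncomputable def XR : Ideal c.R :=
  (Ideal.span (Set.range (MvPowerSeries.X : Fin (d + 1) → MvPowerSeries (Fin (d + 1)) 𝒪))).map
    (Ideal.Quotient.mk c.J)

theorem one_notMem_K_one : (1 : MvPowerSeries (Fin (d + 1)) 𝒪) ∉ c.K 1 := by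
  intro h1
  rw [mem_K, map_one] at h1
  have hM : M.IsMaximal := h.isMaximal
  have : (1 : Λ) ∈ h.Iseq 1 := by
    rw [← Ideal.Quotient.eq_zero_iff_mem, map_one]; exact h1
  rw [h.Iseq_one] at this
  exact hM.ne_top ((Ideal.eq_top_iff_one M).mpr this)

theorem J_ne_top : c.J ≠ ⊤ := by
  intro hJ
  apply c.one_notMem_K_one
  apply c.J_le_K 1
  rw [hJ]
  trivial

instance : Nontrivial c.R := Ideal.Quotient.nontrivial_iff.mpr c.J_ne_top

instance : IsLocalRing c.R :=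
  IsLocalRing.of_surjective' (Ideal.Quotient.mk c.J) Ideal.Quotient.mk_surjective

instance : IsNoetherianRing c.R := inferInstance

/-- the `n`-th level map -/
noncomputable def theta (n : ℕ) : c.R →ₐ[𝒪] Λ ⧸ h.Iseq n :=
  Ideal.Quotient.liftₐ c.J (c.pi n) (fun _ ha => c.mem_K.mp (c.J_le_K n ha))

theorem theta_mk (n : ℕ) (p : MvPowerSeries (Fin (d + 1)) 𝒪) :
    c.theta n (Ideal.Quotient.mk c.J p) = c.pi n p := rfl

theorem theta_surjective (n : ℕ) : Function.Surjective (c.theta n) := by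
  intro z
  obtain ⟨p, rfl⟩ := c.pi_surjective n z
  exact ⟨Ideal.Quotient.mk c.J p, rfl⟩

theorem theta_compat {m n : ℕ} (hmn : m ≤ n) (x : c.R) :
    Ideal.Quotient.factor (h.Iseq_antitone hmn) (c.theta n x) = c.theta m x := by
  obtain ⟨p, rfl⟩ := Ideal.Quotient.mk_surjective x
  rw [theta_mk, theta_mk, c.pi_compat hmn]

theorem ker_theta (n : ℕ) :
    RingHom.ker (c.theta n : c.R →+* Λ ⧸ h.Iseq n) = c.XR ^ n := by
  ext x
  obtain ⟨p, rfl⟩ := Ideal.Quotient.mk_surjective x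
  rw [RingHom.mem_ker, XR, ← Ideal.map_pow]
  change c.theta n (Ideal.Quotient.mk c.J p) = 0 ↔ _
  rw [theta_mk, ← mem_K, c.K_eq_J_sup n,
    Ideal.mem_map_iff_of_surjective _ Ideal.Quotient.mk_surjective]
  constructor
  · intro hp
    obtain ⟨a, ha, b, hb, hab⟩ := Submodule.mem_sup.mp hp
    refine ⟨b, hb, ?_⟩
    rw [← hab, map_add, Ideal.Quotient.eq_zero_iff_mem.mpr ha, zero_add]
  · rintro ⟨b, hb, hbp⟩
    have : p - b ∈ c.J := by
      rw [← Ideal.Quotient.eq_zero_iff_mem, map_sub, hbp, sub_self]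
    have hp : p = (p - b) + b := by ring
    rw [hp]
    exact Submodule.add_mem_sup this hb

theorem XR_isMaximal : c.XR.IsMaximal := by
  have hM : M.IsMaximal := h.isMaximal
  have h1 : c.XR = RingHom.ker (c.theta 1 : c.R →+* Λ ⧸ h.Iseq 1) := by
    rw [c.ker_theta 1]; exact (pow_one c.XR).symm
  have h2 : (⊥ : Ideal (Λ ⧸ h.Iseq 1)).IsMaximal := by
    have h3 : (h.Iseq 1).IsMaximal := by rw [h.Iseq_one]; exact hM
    have := Ideal.IsMaximal.map_of_surjective_of_ker_le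
      (f := Ideal.Quotient.mk (h.Iseq 1)) Ideal.Quotient.mk_surjective (m := h.Iseq 1)
      (by rw [Ideal.mk_ker])
    rwa [Ideal.map_quotient_self] at this
  rw [h1, RingHom.ker_eq_comap_bot]
  exact Ideal.comap_isMaximal_of_surjective _ (c.theta_surjective 1)

theorem maximalIdeal_eq : maximalIdeal c.R = c.XR :=
  (IsLocalRing.eq_maximalIdeal c.XR_isMaximal).symm

theorem ker_theta' (n : ℕ) :
    RingHom.ker (c.theta n : c.R →+* Λ ⧸ h.Iseq n) = maximalIdeal c.R ^ n := by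
  rw [c.ker_theta n, c.maximalIdeal_eq]

instance : IsAdicComplete (maximalIdeal c.R) c.R := by
  have h1 : IsAdicComplete
      (Ideal.span (Set.range (MvPowerSeries.X : Fin (d + 1) → MvPowerSeries (Fin (d + 1)) 𝒪)))
      c.R := IsAdicComplete.of_module_finite _ _
  rw [c.maximalIdeal_eq, XR]
  exact (IsAdicComplete.map_algebraMap_iff _ _).mpr h1

theorem theta_algebraMap (n : ℕ) (a : 𝒪) :
    c.theta n (algebraMap 𝒪 c.R a) = Ideal.Quotient.mk (h.Iseq n) (algebraMap 𝒪 Λ a) := by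
  rw [AlgHom.commutes]
  rfl

theorem mem_maximalIdeal_iff (x : c.R) : x ∈ maximalIdeal c.R ↔ c.theta 1 x = 0 := by
  rw [← pow_one (maximalIdeal c.R), ← c.ker_theta' 1, RingHom.mem_ker]
  rfl

theorem algebraMap_mem_maximalIdeal {a : 𝒪} (ha : a ∈ maximalIdeal 𝒪) :
    algebraMap 𝒪 c.R a ∈ maximalIdeal c.R := by
  rw [c.mem_maximalIdeal_iff, theta_algebraMap, Ideal.Quotient.eq_zero_iff_mem, h.Iseq_one]
  exact h.algebraMap_mem ha

instance : IsLocalHom (algebraMap 𝒪 c.R) := by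
  constructor
  intro a ha
  by_contra hna
  have h1 : a ∈ maximalIdeal 𝒪 := (IsLocalRing.mem_maximalIdeal a).mpr hna
  exact (IsLocalRing.mem_maximalIdeal _).mp (c.algebraMap_mem_maximalIdeal h1) ha

theorem residue_surjective : Function.Surjective (residue c.R ∘ algebraMap 𝒪 c.R) := by
  intro z
  obtain ⟨x, rfl⟩ := IsLocalRing.residue_surjective z
  obtain ⟨l, hl⟩ := Ideal.Quotient.mk_surjective (c.theta 1 x)
  obtain ⟨a, ha⟩ := h.exists_sub_mem l
  refine ⟨a, ?_⟩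
  rw [Function.comp_apply, ← sub_eq_zero, ← map_sub, IsLocalRing.residue_eq_zero_iff,
    c.mem_maximalIdeal_iff, map_sub, theta_algebraMap, ← hl, ← map_sub,
    Ideal.Quotient.eq_zero_iff_mem, h.Iseq_one]
  have : algebraMap 𝒪 Λ a - l = -(l - algebraMap 𝒪 Λ a) := by ring
  rw [this]
  exact Ideal.neg_mem_iff _ |>.mpr ha

end Coords

end Fermat.Agent.S53.ProRep
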