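import Fermat.Agent.S53.ProRep.Least

set_option autoImplicit false
set_option linter.style.haveILetI false

namespace Fermat.Agent.S53.ProRep

open IsLocalRing

variable {𝒪 : Type*} [CommRing 𝒪] [IsDomain 𝒪] [IsDiscreteValuationRing 𝒪]
  [Finite (ResidueField 𝒪)]
variable {Λ : Type*} [CommRing Λ] [Algebra 𝒪 Λ] {M : Ideal Λ} {𝓘 : Set (Ideal Λ)}

/-- A choice of coordinates: finitely many generators of `M` modulo squares and the family,
the first one being the uniformiser. -/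
structure Coords (h : IsAdmissibleFamily 𝒪 Λ M 𝓘) (ϖ : 𝒪) (d : ℕ) where
  y : Fin (d + 1) → Λ
  y_zero : y 0 = algebraMap 𝒪 Λ ϖ
  y_mem : ∀ i, y i ∈ M
  gen : ∀ J ∈ 𝓘, M ≤ Ideal.span (Set.range y) ⊔ J ⊔ M ^ 2

omit [Finite (ResidueField 𝒪)] in
theorem exists_coords (h : IsAdmissibleFamily 𝒪 Λ M 𝓘) {ϖ : 𝒪} (hϖ : Irreducible ϖ) :
    ∃ d : ℕ, Nonempty (Coords h ϖ d) := by
  obtain ⟨d, y, h0, hM, hg⟩ := h.exists_generators_cons hϖ
  exact ⟨d, ⟨⟨y, h0, hM, hg⟩⟩⟩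

namespace Coords

variable {h : IsAdmissibleFamily 𝒪 Λ M 𝓘} {ϖ : 𝒪} {d : ℕ} (c : Coords h ϖ d)

/-- evaluation of polynomials at the coordinates, modulo the `n`-th least ideal -/
noncomputable def phi (n : ℕ) : MvPolynomial (Fin (d + 1)) 𝒪 →ₐ[𝒪] Λ ⧸ h.Iseq n :=
  (Ideal.Quotient.mkₐ 𝒪 (h.Iseq n)).comp (MvPolynomial.aeval c.y)

theorem phi_X (n : ℕ) (i : Fin (d + 1)) :
    c.phi n (MvPolynomial.X i) = Ideal.Quotient.mk (h.Iseq n) (c.y i) := by
  simp [phi]

theorem phi_apply (n : ℕ) (p : MvPolynomial (Fin (d + 1)) 𝒪) :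
    c.phi n p = Ideal.Quotient.mk (h.Iseq n) (MvPolynomial.aeval c.y p) := rfl

theorem phi_surjective (n : ℕ) : Function.Surjective (c.phi n) := by
  by_cases hn : 1 ≤ n
  · exact h.aeval_surjective c.y c.y_mem c.gen (h.Iseq_mem hn)
  · have : n = 0 := by omega
    subst this
    have : Subsingleton (Λ ⧸ h.Iseq 0) := by
      rw [h.Iseq_zero]
      exact Ideal.Quotient.subsingleton_iff.mpr rfl
    intro z
    exact ⟨0, Subsingleton.elim _ _⟩

theorem map_phi_span_X (n : ℕ) :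
    (Ideal.span (Set.range (MvPolynomial.X : Fin (d + 1) → MvPolynomial (Fin (d + 1)) 𝒪))).map
      (c.phi n : MvPolynomial (Fin (d + 1)) 𝒪 →+* Λ ⧸ h.Iseq n) =
    M.map (Ideal.Quotient.mk (h.Iseq n)) := by
  have h1 : (Ideal.span (Set.range (MvPolynomial.X : Fin (d + 1) → MvPolynomial (Fin (d + 1)) 𝒪))).map
      (c.phi n : MvPolynomial (Fin (d + 1)) 𝒪 →+* Λ ⧸ h.Iseq n) =
      Ideal.span (Set.range (fun i => Ideal.Quotient.mk (h.Iseq n) (c.y i))) := by
    rw [Ideal.map_span, ← Set.range_comp]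
    congr 1
    ext z
    constructor
    · rintro ⟨i, rfl⟩
      exact ⟨i, (c.phi_X n i).symm⟩
    · rintro ⟨i, rfl⟩
      exact ⟨i, c.phi_X n i⟩
  rw [h1]
  apply le_antisymm
  · rw [Ideal.span_le]
    rintro _ ⟨i, rfl⟩
    exact Ideal.mem_map_of_mem _ (c.y_mem i)
  · by_cases hn : 1 ≤ n
    · exact h.map_le_span c.y (h.Iseq_mem hn) (c.gen _ (h.Iseq_mem hn))
    · have : n = 0 := by omega
      subst this
      have : Subsingleton (Λ ⧸ h.Iseq 0) := by
        rw [h.Iseq_zero]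
        exact Ideal.Quotient.subsingleton_iff.mpr rfl
      intro z _
      rw [Subsingleton.elim z 0]
      exact Ideal.zero_mem _

theorem pow_le_ker_phi (n : ℕ) :
    (MvPolynomial.idealOfVars (Fin (d + 1)) 𝒪) ^ n ≤
      RingHom.ker (c.phi n : MvPolynomial (Fin (d + 1)) 𝒪 →+* Λ ⧸ h.Iseq n) := by
  intro p hp
  have h1 : (c.phi n : MvPolynomial (Fin (d + 1)) 𝒪 →+* Λ ⧸ h.Iseq n) p ∈
      ((MvPolynomial.idealOfVars (Fin (d + 1)) 𝒪) ^ n).map
        (c.phi n : MvPolynomial (Fin (d + 1)) 𝒪 →+* Λ ⧸ h.Iseq n) := Ideal.mem_map_of_mem _ hp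
  rw [Ideal.map_pow, MvPolynomial.idealOfVars, c.map_phi_span_X n,
    map_pow_eq_bot (h.pow_le_Iseq n), Ideal.mem_bot] at h1
  exact h1

/-- evaluation of power series at the coordinates, modulo the `n`-th least ideal -/
noncomputable def pi (n : ℕ) : MvPowerSeries (Fin (d + 1)) 𝒪 →ₐ[𝒪] Λ ⧸ h.Iseq n :=
  (Ideal.Quotient.liftₐ ((MvPolynomial.idealOfVars (Fin (d + 1)) 𝒪) ^ n) (c.phi n)
    (fun _ ha => RingHom.mem_ker.mp (c.pow_le_ker_phi n ha))).comp
    ((MvPowerSeries.truncTotalAlgHom (Fin (d + 1)) 𝒪 n).restrictScalars 𝒪)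

theorem pi_apply (n : ℕ) (p : MvPowerSeries (Fin (d + 1)) 𝒪) :
    c.pi n p = c.phi n (MvPowerSeries.truncTotal n p) := rfl

theorem phi_eq_zero_of_mem (n : ℕ) {p : MvPolynomial (Fin (d + 1)) 𝒪}
    (hp : p ∈ (MvPolynomial.idealOfVars (Fin (d + 1)) 𝒪) ^ n) : c.phi n p = 0 :=
  RingHom.mem_ker.mp (c.pow_le_ker_phi n hp)

theorem phi_compat {m n : ℕ} (hmn : m ≤ n) (p : MvPolynomial (Fin (d + 1)) 𝒪) :
    Ideal.Quotient.factor (h.Iseq_antitone hmn) (c.phi n p) = c.phi m p := by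
  rw [phi_apply, phi_apply, Ideal.Quotient.factor_mk]

theorem pi_coe (n : ℕ) (p : MvPolynomial (Fin (d + 1)) 𝒪) :
    c.pi n (p : MvPowerSeries (Fin (d + 1)) 𝒪) = c.phi n p := by
  rw [pi_apply, ← sub_eq_zero, ← map_sub]
  apply c.phi_eq_zero_of_mem
  rw [MvPolynomial.mem_pow_idealOfVars_iff']
  intro x hx
  rw [MvPolynomial.coeff_sub, sub_eq_zero, MvPowerSeries.coeff_truncTotal _ hx,
    MvPolynomial.coeff_coe]

theorem pi_X (n : ℕ) (i : Fin (d + 1)) :
    c.pi n (MvPowerSeries.X i) = Ideal.Quotient.mk (h.Iseq n) (c.y i) := by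
  rw [← MvPolynomial.coe_X, pi_coe, phi_X]

theorem pi_surjective (n : ℕ) : Function.Surjective (c.pi n) := by
  intro z
  obtain ⟨p, rfl⟩ := c.phi_surjective n z
  exact ⟨p, c.pi_coe n p⟩

theorem pi_compat {m n : ℕ} (hmn : m ≤ n) (p : MvPowerSeries (Fin (d + 1)) 𝒪) :
    Ideal.Quotient.factor (h.Iseq_antitone hmn) (c.pi n p) = c.pi m p := by
  rw [pi_apply, pi_apply, c.phi_compat hmn, ← sub_eq_zero, ← map_sub]
  apply c.phi_eq_zero_of_mem
  exact MvPowerSeries.truncTotal_sub_truncTotal_mem_pow_idealOfVars hmn le_rfl p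

theorem map_pi_span_X (n : ℕ) :
    (Ideal.span (Set.range (MvPowerSeries.X : Fin (d + 1) → MvPowerSeries (Fin (d + 1)) 𝒪))).map
      (c.pi n : MvPowerSeries (Fin (d + 1)) 𝒪 →+* Λ ⧸ h.Iseq n) =
    M.map (Ideal.Quotient.mk (h.Iseq n)) := by
  rw [← c.map_phi_span_X n, Ideal.map_span, Ideal.map_span, ← Set.range_comp, ← Set.range_comp]
  congr 2
  ext i
  simp only [Function.comp_apply, RingHom.coe_coe]
  rw [pi_X, phi_X]

/-- the kernel of the `n`-th evaluation -/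
noncomputable def K (n : ℕ) : Ideal (MvPowerSeries (Fin (d + 1)) 𝒪) :=
  RingHom.ker (c.pi n : MvPowerSeries (Fin (d + 1)) 𝒪 →+* Λ ⧸ h.Iseq n)

theorem mem_K {n : ℕ} {p : MvPowerSeries (Fin (d + 1)) 𝒪} : p ∈ c.K n ↔ c.pi n p = 0 :=
  RingHom.mem_ker

theorem K_antitone : Antitone c.K := by
  intro m n hmn p hp
  rw [mem_K] at hp ⊢
  rw [← c.pi_compat hmn, hp, map_zero]

theorem span_X_pow_le_K (n : ℕ) :
    (Ideal.span (Set.range (MvPowerSeries.X : Fin (d + 1) → MvPowerSeries (Fin (d + 1)) 𝒪))) ^ n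
      ≤ c.K n := by
  intro p hp
  have h1 : (c.pi n : MvPowerSeries (Fin (d + 1)) 𝒪 →+* Λ ⧸ h.Iseq n) p ∈
      ((Ideal.span (Set.range (MvPowerSeries.X : Fin (d + 1) → MvPowerSeries (Fin (d + 1)) 𝒪)))
        ^ n).map (c.pi n : MvPowerSeries (Fin (d + 1)) 𝒪 →+* Λ ⧸ h.Iseq n) :=
    Ideal.mem_map_of_mem _ hp
  rw [Ideal.map_pow, c.map_pi_span_X n, map_pow_eq_bot (h.pow_le_Iseq n), Ideal.mem_bot] at h1
  exact c.mem_K.mpr h1

theorem K_eq_sup (n : ℕ) :
    c.K n = c.K (n + 1) ⊔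
      (Ideal.span (Set.range (MvPowerSeries.X : Fin (d + 1) → MvPowerSeries (Fin (d + 1)) 𝒪))) ^ n := by
  apply le_antisymm
  · intro p hp
    rw [mem_K] at hp
    -- `π_{n+1} p` lies in the image of `M ^ n`
    have h1 : c.pi (n + 1) p ∈ (M ^ n).map (Ideal.Quotient.mk (h.Iseq (n + 1))) := by
      have h2 : Ideal.Quotient.factor (h.Iseq_antitone (Nat.le_succ n)) (c.pi (n + 1) p) = 0 := by
        rw [c.pi_compat (Nat.le_succ n), hp]
      obtain ⟨x, hx⟩ := Ideal.Quotient.mk_surjective (c.pi (n + 1) p)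
      rw [← hx, Ideal.Quotient.factor_mk, Ideal.Quotient.eq_zero_iff_mem, h.Iseq_eq_sup n,
        Submodule.mem_sup] at h2
      obtain ⟨a, ha, b, hb, hab⟩ := h2
      rw [← hx, ← hab, map_add, Ideal.Quotient.eq_zero_iff_mem.mpr ha, zero_add]
      exact Ideal.mem_map_of_mem _ hb
    rw [Ideal.map_pow, ← c.map_pi_span_X (n + 1), ← Ideal.map_pow] at h1
    obtain ⟨q, hq, hqp⟩ := (Ideal.mem_map_iff_of_surjective _ (c.pi_surjective (n + 1))).mp h1
    have h3 : p - q ∈ c.K (n + 1) := by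
      rw [mem_K, map_sub, sub_eq_zero]
      exact hqp.symm
    have : p = (p - q) + q := by ring
    rw [this]
    exact Submodule.add_mem_sup h3 hq
  · exact sup_le (c.K_antitone (Nat.le_succ n)) (c.span_X_pow_le_K n)

/-- the intersection of all the kernels -/
noncomputable def J : Ideal (MvPowerSeries (Fin (d + 1)) 𝒪) := ⨅ n, c.K n

theorem J_le_K (n : ℕ) : c.J ≤ c.K n := iInf_le _ n

/-- Chevalley-type lemma: the kernels `K n` are the closures of `J`. -/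
theorem K_eq_J_sup (n : ℕ) :
    c.K n = c.J ⊔
      (Ideal.span (Set.range (MvPowerSeries.X : Fin (d + 1) → MvPowerSeries (Fin (d + 1)) 𝒪))) ^ n := by
  set 𝔛 : Ideal (MvPowerSeries (Fin (d + 1)) 𝒪) :=
    Ideal.span (Set.range (MvPowerSeries.X : Fin (d + 1) → MvPowerSeries (Fin (d + 1)) 𝒪)) with h𝔛
  apply le_antisymm
  · intro p hp
    -- successive approximation
    have hstep : ∀ (j : ℕ) (q : {q : MvPowerSeries (Fin (d + 1)) 𝒪 // q ∈ c.K (n + j)}),
        ∃ q' : {q : MvPowerSeries (Fin (d + 1)) 𝒪 // q ∈ c.K (n + (j + 1))},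
          (q : MvPowerSeries (Fin (d + 1)) 𝒪) - q' ∈ 𝔛 ^ (n + j) := by
      intro j q
      obtain ⟨a, ha, b, hb, hab⟩ := Submodule.mem_sup.mp ((c.K_eq_sup (n + j)).le q.2)
      refine ⟨⟨a, ha⟩, ?_⟩
      have : (q : MvPowerSeries (Fin (d + 1)) 𝒪) - a = b := by rw [← hab]; ring
      rw [this]
      exact hb
    choose next hnext using hstep
    let seq : (j : ℕ) → {q : MvPowerSeries (Fin (d + 1)) 𝒪 // q ∈ c.K (n + j)} :=
      fun j => Nat.rec (motive := fun j => {q : MvPowerSeries (Fin (d + 1)) 𝒪 // q ∈ c.K (n + j)})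
        ⟨p, hp⟩ (fun j q => next j q) j
    have hseq0 : (seq 0 : MvPowerSeries (Fin (d + 1)) 𝒪) = p := rfl
    have hseqs : ∀ j, (seq j : MvPowerSeries (Fin (d + 1)) 𝒪) - seq (j + 1) ∈ 𝔛 ^ (n + j) :=
      fun j => hnext j (seq j)
    have hdiff : ∀ j k, j ≤ k →
        (seq j : MvPowerSeries (Fin (d + 1)) 𝒪) - seq k ∈ 𝔛 ^ (n + j) := by
      intro j k hjk
      induction k, hjk using Nat.le_induction with
      | base => rw [sub_self]; exact Ideal.zero_mem _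
      | succ k hjk ih =>
        have h1 : (seq k : MvPowerSeries (Fin (d + 1)) 𝒪) - seq (k + 1) ∈ 𝔛 ^ (n + j) :=
          Ideal.pow_le_pow_right (by omega) (hseqs k)
        have : (seq j : MvPowerSeries (Fin (d + 1)) 𝒪) - seq (k + 1) =
            (seq j - seq k) + (seq k - seq (k + 1)) := by ring
        rw [this]
        exact Ideal.add_mem _ ih h1
    -- the limit
    obtain ⟨L, hL⟩ := IsPrecomplete.prec' (I := 𝔛) (M := MvPowerSeries (Fin (d + 1)) 𝒪)
      (fun j => (seq j : MvPowerSeries (Fin (d + 1)) 𝒪)) (by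
        intro a b hab
        rw [SModEq.sub_mem, smul_eq_mul, Ideal.mul_top]
        exact Ideal.pow_le_pow_right (by omega) (hdiff a b hab))
    have hL' : ∀ j, (seq j : MvPowerSeries (Fin (d + 1)) 𝒪) - L ∈ 𝔛 ^ j := by
      intro j
      have := hL j
      rwa [SModEq.sub_mem, smul_eq_mul, Ideal.mul_top] at this
    have hLJ : L ∈ c.J := by
      rw [J, Ideal.mem_iInf]
      intro j
      have h1 : (seq j : MvPowerSeries (Fin (d + 1)) 𝒪) ∈ c.K j :=
        c.K_antitone (by omega) (seq j).2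
      have h2 : (seq j : MvPowerSeries (Fin (d + 1)) 𝒪) - L ∈ c.K j :=
        c.span_X_pow_le_K j (hL' j)
      have : L = (seq j : MvPowerSeries (Fin (d + 1)) 𝒪) - (seq j - L) := by ring
      rw [this]
      exact Ideal.sub_mem _ h1 h2
    have hpL : p - L ∈ 𝔛 ^ n := by
      have h1 : p - (seq n : MvPowerSeries (Fin (d + 1)) 𝒪) ∈ 𝔛 ^ n := by
        have := hdiff 0 n (Nat.zero_le n)
        rwa [hseq0, add_zero] at this
      have : p - L = (p - seq n) + (seq n - L) := by ring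
      rw [this]
      exact Ideal.add_mem _ h1 (hL' n)
    have : p = L + (p - L) := by ring
    rw [this]
    exact Submodule.add_mem_sup hLJ hpL
  · exact sup_le (c.J_le_K n) (c.span_X_pow_le_K n)

end Coords

end Fermat.Agent.S53.ProRep
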