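import Fermat.Agent.S53.ProRep.Generators

set_option autoImplicit false
set_option linter.style.haveILetI false

namespace Fermat.Agent.S53.ProRep

open IsLocalRing

namespace IsAdmissibleFamily

variable {𝒪 : Type*} [CommRing 𝒪] [IsLocalRing 𝒪]
variable {Λ : Type*} [CommRing Λ] [Algebra 𝒪 Λ] {M : Ideal Λ} {𝓘 : Set (Ideal Λ)}

/-- Nakayama: if `y` generates `M` modulo `I ⊔ M ^ 2`, the images of `y` generate the maximal ideal
of `Λ ⧸ I`. -/
theorem map_le_span (h : IsAdmissibleFamily 𝒪 Λ M 𝓘) {r : ℕ} (y : Fin r → Λ)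
    {I : Ideal Λ} (hI : I ∈ 𝓘) (hy : M ≤ Ideal.span (Set.range y) ⊔ I ⊔ M ^ 2) :
    M.map (Ideal.Quotient.mk I) ≤
      Ideal.span (Set.range (fun i => Ideal.Quotient.mk I (y i))) := by
  haveI := h.isMaximal
  haveI : IsLocalRing (Λ ⧸ I) := h.isLocalRing_quotient hI
  haveI := h.finite I hI
  have hm : maximalIdeal (Λ ⧸ I) = M.map (Ideal.Quotient.mk I) :=
    maximalIdeal_quotient' (h.le I hI)
  rw [← hm]
  have h1 : maximalIdeal (Λ ⧸ I) ≤
      Ideal.span (Set.range (fun i => Ideal.Quotient.mk I (y i))) ⊔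
        maximalIdeal (Λ ⧸ I) • maximalIdeal (Λ ⧸ I) := by
    have := Ideal.map_mono (f := Ideal.Quotient.mk I) hy
    rw [Ideal.map_sup, Ideal.map_sup, Ideal.map_span, ← Set.range_comp, Ideal.map_quotient_self,
      sup_bot_eq, Ideal.map_pow, ← hm] at this
    rw [smul_eq_mul, ← pow_two]
    exact this
  exact Submodule.le_of_le_smul_of_le_jacobson_bot (IsNoetherian.noetherian _)
    (IsLocalRing.maximalIdeal_le_jacobson ⊥) h1

/-- If `y` generates `M` modulo `J ⊔ M ^ 2` for every member `J` of the family, then the polynomial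
ring on `y` surjects onto every `Λ ⧸ I`, `I ∈ 𝓘`. -/
theorem aeval_surjective (h : IsAdmissibleFamily 𝒪 Λ M 𝓘) {r : ℕ} (y : Fin r → Λ)
    (hyM : ∀ i, y i ∈ M)
    (hy : ∀ J ∈ 𝓘, M ≤ Ideal.span (Set.range y) ⊔ J ⊔ M ^ 2) {I : Ideal Λ} (hI : I ∈ 𝓘) :
    Function.Surjective ((Ideal.Quotient.mkₐ 𝒪 I).comp (MvPolynomial.aeval y)) := by
  haveI := h.isMaximal
  haveI : IsLocalRing (Λ ⧸ I) := h.isLocalRing_quotient hI
  haveI := h.finite I hI
  obtain ⟨n, hn⟩ := h.pow_le I hI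
  set φ : MvPolynomial (Fin r) 𝒪 →ₐ[𝒪] Λ ⧸ I :=
    (Ideal.Quotient.mkₐ 𝒪 I).comp (MvPolynomial.aeval y) with hφ
  have hm : maximalIdeal (Λ ⧸ I) = M.map (Ideal.Quotient.mk I) :=
    maximalIdeal_quotient' (h.le I hI)
  have hmn : maximalIdeal (Λ ⧸ I) ^ n = ⊥ := by rw [hm]; exact map_pow_eq_bot hn
  set 𝔟 : Ideal (Λ ⧸ I) := Ideal.span (Set.range (fun i => Ideal.Quotient.mk I (y i))) with h𝔟
  have h𝔟m : 𝔟 ≤ maximalIdeal (Λ ⧸ I) := by
    rw [h𝔟, Ideal.span_le, hm]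
    rintro _ ⟨i, rfl⟩
    exact Ideal.mem_map_of_mem _ (hyM i)
  -- Nakayama: the images of `y` generate the maximal ideal
  have h1 : maximalIdeal (Λ ⧸ I) ≤ 𝔟 ⊔ maximalIdeal (Λ ⧸ I) • maximalIdeal (Λ ⧸ I) := by
    have := Ideal.map_mono (f := Ideal.Quotient.mk I) (hy I hI)
    rw [Ideal.map_sup, Ideal.map_sup, Ideal.map_span, ← Set.range_comp, Ideal.map_quotient_self,
      sup_bot_eq, Ideal.map_pow, ← hm] at this
    rw [smul_eq_mul, ← pow_two]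
    exact this
  have h2 : maximalIdeal (Λ ⧸ I) ≤ 𝔟 :=
    Submodule.le_of_le_smul_of_le_jacobson_bot (IsNoetherian.noetherian _)
      (IsLocalRing.maximalIdeal_le_jacobson ⊥) h1
  -- regard `Λ ⧸ I` as an algebra over the polynomial ring
  letI : Algebra (MvPolynomial (Fin r) 𝒪) (Λ ⧸ I) := φ.toRingHom.toAlgebra
  have halg : ∀ p : MvPolynomial (Fin r) 𝒪, algebraMap (MvPolynomial (Fin r) 𝒪) (Λ ⧸ I) p = φ p :=
    fun p => rfl
  set 𝔞 : Ideal (MvPolynomial (Fin r) 𝒪) := Ideal.span (Set.range MvPolynomial.X) with h𝔞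
  have hmap : 𝔞.map (algebraMap (MvPolynomial (Fin r) 𝒪) (Λ ⧸ I)) = 𝔟 := by
    rw [h𝔞, Ideal.map_span, ← Set.range_comp, h𝔟]
    congr 1
    ext z
    constructor
    · rintro ⟨i, rfl⟩
      refine ⟨i, ?_⟩
      simp [halg, hφ]
    · rintro ⟨i, rfl⟩
      refine ⟨i, ?_⟩
      simp [halg, hφ]
  have hbase : (⊤ : Submodule (MvPolynomial (Fin r) 𝒪) (Λ ⧸ I)) ≤ 1 ⊔ 𝔞 • ⊤ := by
    intro a _
    obtain ⟨x, rfl⟩ := Ideal.Quotient.mk_surjective a
    obtain ⟨c, hc⟩ := h.exists_sub_mem x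
    have e : Ideal.Quotient.mk I x =
        algebraMap (MvPolynomial (Fin r) 𝒪) (Λ ⧸ I) (MvPolynomial.C c) +
          Ideal.Quotient.mk I (x - algebraMap 𝒪 Λ c) := by
      rw [halg, hφ]
      simp
    rw [e]
    refine Submodule.add_mem_sup ?_ ?_
    · rw [Submodule.one_eq_range]
      exact ⟨MvPolynomial.C c, rfl⟩
    · rw [Ideal.smul_top_eq_map, Submodule.restrictScalars_mem, hmap]
      apply h2
      rw [hm]
      exact Ideal.mem_map_of_mem _ hc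
  have hind : ∀ j : ℕ, (⊤ : Submodule (MvPolynomial (Fin r) 𝒪) (Λ ⧸ I)) ≤ 1 ⊔ 𝔞 ^ j • ⊤ := by
    intro j
    induction j with
    | zero => rw [pow_zero, Ideal.one_eq_top, Submodule.top_smul]; exact le_sup_right
    | succ j ih =>
      calc (⊤ : Submodule (MvPolynomial (Fin r) 𝒪) (Λ ⧸ I)) ≤ 1 ⊔ 𝔞 ^ j • ⊤ := ih
        _ ≤ 1 ⊔ 𝔞 ^ j • (1 ⊔ 𝔞 • ⊤) := sup_le_sup_left (Submodule.smul_mono le_rfl hbase) _
        _ = 1 ⊔ (𝔞 ^ j • 1 ⊔ 𝔞 ^ (j + 1) • ⊤) := by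
            rw [Submodule.smul_sup, ← Submodule.mul_smul, ← pow_succ]
        _ ≤ 1 ⊔ 𝔞 ^ (j + 1) • ⊤ := by
            refine sup_le le_sup_left (sup_le ?_ le_sup_right)
            exact le_sup_of_le_left Submodule.smul_le_right
  have hzero : 𝔞 ^ n • (⊤ : Submodule (MvPolynomial (Fin r) 𝒪) (Λ ⧸ I)) = ⊥ := by
    rw [eq_bot_iff, Submodule.smul_le]
    intro p hp a _
    have : algebraMap (MvPolynomial (Fin r) 𝒪) (Λ ⧸ I) p ∈
        (𝔞 ^ n).map (algebraMap (MvPolynomial (Fin r) 𝒪) (Λ ⧸ I)) := Ideal.mem_map_of_mem _ hp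
    rw [Ideal.map_pow, hmap] at this
    have h0 : algebraMap (MvPolynomial (Fin r) 𝒪) (Λ ⧸ I) p = 0 := by
      have := (Ideal.pow_right_mono h𝔟m n) this
      rwa [hmn, Ideal.mem_bot] at this
    rw [Submodule.mem_bot, Algebra.smul_def, h0, zero_mul]
  intro a
  have := hind n (Submodule.mem_top (x := a))
  rw [hzero, sup_bot_eq, Submodule.one_eq_range] at this
  obtain ⟨p, hp⟩ := this
  exact ⟨p, hp⟩

end IsAdmissibleFamily

end Fermat.Agent.S53.ProRep
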