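import Fermat.Agent.S53.ProRep.Main
import Fermat.Prelude.Def_GaloisRep_DeformationCondition

set_option autoImplicit false
set_option linter.style.haveILetI false

/-!
# Members of an admissible family give Artinian test algebras
-/

namespace Fermat.Agent.S53.ProRep

open IsLocalRing

namespace IsAdmissibleFamily

section

variable {𝒪 : Type*} [CommRing 𝒪] [IsLocalRing 𝒪]
variable {Λ : Type*} [CommRing Λ] [Algebra 𝒪 Λ] {M : Ideal Λ} {𝓘 : Set (Ideal Λ)}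

/-- the maximal ideal of a member of the family -/
theorem maximalIdeal_quotient_eq (h : IsAdmissibleFamily 𝒪 Λ M 𝓘) {I : Ideal Λ} (hI : I ∈ 𝓘)
    [IsLocalRing (Λ ⧸ I)] : maximalIdeal (Λ ⧸ I) = M.map (Ideal.Quotient.mk I) := by
  haveI := h.isMaximal
  exact maximalIdeal_quotient' (h.le I hI)

theorem mk_mem_maximalIdeal_iff (h : IsAdmissibleFamily 𝒪 Λ M 𝓘) {I : Ideal Λ} (hI : I ∈ 𝓘)
    [IsLocalRing (Λ ⧸ I)] (x : Λ) :
    Ideal.Quotient.mk I x ∈ maximalIdeal (Λ ⧸ I) ↔ x ∈ M := by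
  rw [h.maximalIdeal_quotient_eq hI]
  constructor
  · intro hx
    obtain ⟨y, hy, hyx⟩ := (Ideal.mem_map_iff_of_surjective _ Ideal.Quotient.mk_surjective).mp hx
    have : x - y ∈ I := by
      rw [← Ideal.Quotient.eq_zero_iff_mem, map_sub, hyx, sub_self]
    have hxy : x = (x - y) + y := by ring
    rw [hxy]
    exact Ideal.add_mem _ (h.le I hI this) hy
  · intro hx
    exact Ideal.mem_map_of_mem _ hx

theorem exists_maximalIdeal_quotient_pow_eq_bot (h : IsAdmissibleFamily 𝒪 Λ M 𝓘) {I : Ideal Λ}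
    (hI : I ∈ 𝓘) [IsLocalRing (Λ ⧸ I)] : ∃ n : ℕ, maximalIdeal (Λ ⧸ I) ^ n = ⊥ := by
  obtain ⟨n, hn⟩ := h.pow_le I hI
  exact ⟨n, by rw [h.maximalIdeal_quotient_eq hI]; exact map_pow_eq_bot hn⟩

theorem isLocalHom_algebraMap_quotient (h : IsAdmissibleFamily 𝒪 Λ M 𝓘) {I : Ideal Λ}
    (hI : I ∈ 𝓘) [IsLocalRing (Λ ⧸ I)] : IsLocalHom (algebraMap 𝒪 (Λ ⧸ I)) := by
  constructor
  intro a ha
  by_contra hna
  have h1 : a ∈ maximalIdeal 𝒪 := (IsLocalRing.mem_maximalIdeal a).mpr hna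
  have h2 : Ideal.Quotient.mk I (algebraMap 𝒪 Λ a) ∈ maximalIdeal (Λ ⧸ I) :=
    (h.mk_mem_maximalIdeal_iff hI _).mpr (h.algebraMap_mem h1)
  exact (IsLocalRing.mem_maximalIdeal _).mp h2 ha

theorem residue_surjective_quotient (h : IsAdmissibleFamily 𝒪 Λ M 𝓘) {I : Ideal Λ}
    (hI : I ∈ 𝓘) [IsLocalRing (Λ ⧸ I)] :
    Function.Surjective (residue (Λ ⧸ I) ∘ algebraMap 𝒪 (Λ ⧸ I)) := by
  intro z
  obtain ⟨y, rfl⟩ := IsLocalRing.residue_surjective z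
  obtain ⟨x, rfl⟩ := Ideal.Quotient.mk_surjective y
  obtain ⟨a, ha⟩ := h.exists_sub_mem x
  refine ⟨a, ?_⟩
  rw [Function.comp_apply, ← sub_eq_zero, ← map_sub, IsLocalRing.residue_eq_zero_iff]
  have h1 : algebraMap 𝒪 (Λ ⧸ I) a - Ideal.Quotient.mk I x =
      Ideal.Quotient.mk I (algebraMap 𝒪 Λ a - x) := by
    rw [map_sub]; rfl
  rw [h1, h.mk_mem_maximalIdeal_iff hI]
  have : algebraMap 𝒪 Λ a - x = -(x - algebraMap 𝒪 Λ a) := by ring
  rw [this]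
  exact (Ideal.neg_mem_iff _).mpr ha

end

/-- Every member of an admissible family is an Artinian test algebra. -/
theorem isArtinianTestAlgebra {𝒪 : Type} [CommRing 𝒪] [IsLocalRing 𝒪] {Λ : Type} [CommRing Λ]
    [Algebra 𝒪 Λ] {M : Ideal Λ} {𝓘 : Set (Ideal Λ)} (h : IsAdmissibleFamily 𝒪 Λ M 𝓘)
    {I : Ideal Λ} (hI : I ∈ 𝓘) [IsLocalRing (Λ ⧸ I)] :
    GaloisRep.IsArtinianTestAlgebra 𝒪 (Λ ⧸ I) := by
  haveI := h.finite I hI
  exact ⟨h.isLocalHom_algebraMap_quotient hI, h.residue_surjective_quotient hI, inferInstance⟩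

end IsAdmissibleFamily

end Fermat.Agent.S53.ProRep
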